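import Mathlib
import Fermat.Agent.Lib.FunctionField.RiemannHurwitz
import Fermat.Prelude.Def_ModularCurve_GenusNumerics
import Fermat.Prelude.Def_ModularCurve_ArithmeticGalois

/-!
# S24, top-level reduction (item 68, block TOP)

The genus of a function field of one variable from the place counts of a separating element
(`genus_eq_of_degree`), and its specialisation to the function field of `X₀(N)` over `ℚ̄`
with the element `j` (`genus_eq_of_counts`).
-/

set_option autoImplicit false
set_option linter.unusedSectionVars false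

open AlgebraicCurve KaehlerDifferential IntermediateField

namespace Fermat.Agent.Lib.FF

variable {K F : Type*} [Field K] [Field F] [Algebra K F]

/-- The genus from the Riemann–Hurwitz count. -/
theorem genus_eq_of_degree [HasCanonicalDivisor (K := K) (F := F)] [CharZero K] [IsAlgClosed K]
    {x : F} (hx : IsFF1 K F x) (hpf : PlaceFacts K F) (A : Finset K)
    (hA : ∀ a : K, a ∉ A → nFibre x a = Module.finrank K⟮x⟯ F) (g : ℕ)
    (hg : ∑ a ∈ A, ((Module.finrank K⟮x⟯ F : ℤ) - nFibre x a)
        - (Module.finrank K⟮x⟯ F : ℤ) - nPoles (K := K) x = 2 * (g : ℤ) - 2) :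
    genus K F = g := by
  have h : ∃ ω : Ω[F⁄K], ω ≠ 0 := ⟨_, D_ne_zero hx⟩
  have hdeg := degree_canonical_of_facts hx hpf A hA h.choose h.choose_spec
    (canonicalDivisorOf h.choose_spec) (fun v => canonicalDivisorOf_apply h.choose_spec v)
  rw [hg] at hdeg
  rw [genus, dif_pos h, hdeg]
  omega

end Fermat.Agent.Lib.FF

namespace Fermat.Agent.S24

open ModularCurve Fermat.Agent.Lib.FF

/-- the `j`-function as an element of the function field of `X₀(N)` over `ℚ̄`. -/
noncomputable def jBar (N : ℕ) [NeZero N] : modularFunctionFieldBar N :=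
  ⟨coeffEmb (AlgebraicClosure ℚ) jq,
    coeffEmb_mem_laurentBaseChange (AlgebraicClosure ℚ)
      (by have := jqd_mem_full N (one_dvd N); rwa [qExpand_one_apply] at this)⟩

/-- S24 from the place counts of `j` on `X₀(N)`. -/
theorem genus_eq_of_counts (N : ℕ) [NeZero N]
    [AlgebraicCurve.HasCanonicalDivisor (K := AlgebraicClosure ℚ)
      (F := ↥(modularFunctionFieldBar N))]
    (hff : IsFF1 (AlgebraicClosure ℚ) (modularFunctionFieldBar N) (jBar N))
    (hpf : PlaceFacts (AlgebraicClosure ℚ) (modularFunctionFieldBar N))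
    (hdeg : Module.finrank (AlgebraicClosure ℚ)⟮jBar N⟯ (modularFunctionFieldBar N) = dedekindPsi N)
    (hgen : ∀ a : AlgebraicClosure ℚ, a ≠ 0 → a ≠ 1728 → nFibre (jBar N) a = dedekindPsi N)
    (h0 : 3 * nFibre (jBar N) (0 : AlgebraicClosure ℚ) = dedekindPsi N + 2 * nuThree N)
    (h1728 : 2 * nFibre (jBar N) (1728 : AlgebraicClosure ℚ) = dedekindPsi N + nuTwo N)
    (hinf : nPoles (K := AlgebraicClosure ℚ) (jBar N) = cuspCount N)
    (hnat : ∃ g : ℕ, (g : ℚ) = genusFormula N) :
    (AlgebraicCurve.genus (AlgebraicClosure ℚ) ↥(modularFunctionFieldBar N) : ℚ)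
      = genusFormula N := by
  classical
  obtain ⟨g, hg⟩ := hnat
  have hne : (0 : AlgebraicClosure ℚ) ≠ 1728 := by norm_num
  have key : genus (AlgebraicClosure ℚ) ↥(modularFunctionFieldBar N) = g := by
    refine genus_eq_of_degree hff hpf {0, 1728} ?_ g ?_
    · intro a ha
      rw [Finset.mem_insert, Finset.mem_singleton, not_or] at ha
      rw [hdeg]
      exact hgen a ha.1 ha.2
    · rw [Finset.sum_pair hne, hdeg, hinf]
      rw [genusFormula] at hg
      have h0' : (3 : ℚ) * nFibre (jBar N) (0 : AlgebraicClosure ℚ) =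
          dedekindPsi N + 2 * nuThree N := by exact_mod_cast h0
      have h1' : (2 : ℚ) * nFibre (jBar N) (1728 : AlgebraicClosure ℚ) =
          dedekindPsi N + nuTwo N := by exact_mod_cast h1728
      have : (((dedekindPsi N : ℤ) - nFibre (jBar N) (0 : AlgebraicClosure ℚ)
          + ((dedekindPsi N : ℤ) - nFibre (jBar N) (1728 : AlgebraicClosure ℚ))
          - (dedekindPsi N : ℤ) - (cuspCount N : ℤ) : ℤ) : ℚ) = ((2 * (g : ℤ) - 2 : ℤ) : ℚ) := by
        push_cast
        linarith
      exact_mod_cast this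
  rw [key, hg]

end Fermat.Agent.S24
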