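import Mathlib
import Fermat.Agent.S24.Top
import Fermat.Agent.Lib.ModC.Counts
import Fermat.Agent.Lib.ModC.InfModel
import Fermat.Agent.Lib.ModC.AsmAlg
import Fermat.Agent.Lib.ModJ.Degree
import Fermat.Agent.Lib.Gamma0Count.Ree

/-!
# S24, final assembly (item 68, block (C))

* `exists_nat_eq_genusFormula`: the genus formula is a natural number (Ree parity + counts).
* `isFF1_jBar`, `finrank_jBar`: `j` is a separating variable of degree `ψ(N)`.
* `genus_of_models`: S24 from the three point models (generic point, `ρ`, `i`).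
-/

set_option autoImplicit false

open AlgebraicCurve IntermediateField ModularCurve
open scoped MatrixGroups

namespace Fermat.Agent.S24

open Fermat.Agent.Lib.FF Fermat.Agent.Lib.ModC CongruenceSubgroup

/-- The genus formula takes a natural number value. -/
theorem exists_nat_eq_genusFormula (N : ℕ) [NeZero N] :
    ∃ g : ℕ, (g : ℚ) = genusFormula N := by
  obtain ⟨g, hg⟩ := Fermat.Agent.Lib.Gamma0Count.ree_parity N
  have h2 := Fermat.Agent.Lib.Gamma0Count.two_mul_card_orbits_S N
  have h3 := Fermat.Agent.Lib.Gamma0Count.three_mul_card_orbits_ST N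
  rw [Fermat.Agent.Lib.Gamma0Count.card_quotient,
    Fermat.Agent.Lib.Gamma0Count.card_fixedBy_S] at h2
  rw [Fermat.Agent.Lib.Gamma0Count.card_quotient,
    Fermat.Agent.Lib.Gamma0Count.card_fixedBy_ST] at h3
  rw [Fermat.Agent.Lib.Gamma0Count.card_quotient,
    Fermat.Agent.Lib.Gamma0Count.card_orbits_T] at hg
  refine ⟨g, ?_⟩
  rw [genusFormula]
  have hg' : ((dedekindPsi N : ℚ) + 2
      - (Nat.card (MulAction.orbitRel.Quotient
          (Subgroup.zpowers (ModularGroup.S * ModularGroup.T)) (SL(2, ℤ) ⧸ Gamma0 N)) : ℚ)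
      - (Nat.card (MulAction.orbitRel.Quotient (Subgroup.zpowers ModularGroup.S)
          (SL(2, ℤ) ⧸ Gamma0 N)) : ℚ)
      - (cuspCount N : ℚ)) = 2 * (g : ℚ) := by exact_mod_cast hg
  have h2' : (2 : ℚ) * (Nat.card (MulAction.orbitRel.Quotient (Subgroup.zpowers ModularGroup.S)
          (SL(2, ℤ) ⧸ Gamma0 N)) : ℚ) = dedekindPsi N + nuTwo N := by exact_mod_cast h2
  have h3' : (3 : ℚ) * (Nat.card (MulAction.orbitRel.Quotient
          (Subgroup.zpowers (ModularGroup.S * ModularGroup.T)) (SL(2, ℤ) ⧸ Gamma0 N)) : ℚ)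
      = dedekindPsi N + 2 * nuThree N := by exact_mod_cast h3
  linarith

/-- `j` is a separating variable of the function field of `X₀(N)` over `ℚ̄`. -/
theorem isFF1_jBar (N : ℕ) [NeZero N] :
    IsFF1 (AlgebraicClosure ℚ) (modularFunctionFieldBar N) (jBar N) :=
  ⟨(Fermat.Agent.Lib.ModJ.finrank_le_dedekindPsi_bar N (jBar N) rfl).1,
    (Fermat.Agent.Lib.ModJ.finrank_le_dedekindPsi_bar N (jBar N) rfl).2.1⟩

/-- The degree of `j` on `X₀(N)` is the index `ψ(N)`. -/
theorem finrank_jBar (N : ℕ) [NeZero N] :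
    Module.finrank (AlgebraicClosure ℚ)⟮jBar N⟯ (modularFunctionFieldBar N) = dedekindPsi N := by
  classical
  apply le_antisymm (Fermat.Agent.Lib.ModJ.finrank_le_dedekindPsi_bar N (jBar N) rfl).2.2
  haveI := finite_quotient_Gamma0 N
  letI : Fintype (SL(2, ℤ) ⧸ Gamma0 N) := Fintype.ofFinite _
  have hx := isFF1_jBar N
  have hy : IsFF1 (AlgebraicClosure ℚ) (modularFunctionFieldBar N) (jBar N)⁻¹ :=
    isFF1_of_transcendental hx _ (transcendental_inv hx.transcendental)
  haveI : FiniteDimensional (AlgebraicClosure ℚ)⟮(jBar N)⁻¹⟯ (modularFunctionFieldBar N) :=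
    hy.finite
  let M := infModel N
  let τX : (SL(2, ℤ) ⧸ Gamma0 N) → (modularFunctionFieldBar N →+* M.Ω) :=
    Quotient.lift M.τ (fun γ γ' h => by
      rw [M.τ_eq_iff]
      exact QuotientGroup.leftRel_apply.mp h)
  have hτX : ∀ γ : SL(2, ℤ), τX (γ : SL(2, ℤ) ⧸ Gamma0 N) = M.τ γ := fun γ => rfl
  have hinj : Function.Injective τX := by
    intro x x' h
    induction x using QuotientGroup.induction_on with
    | H γ =>
      induction x' using QuotientGroup.induction_on with
      | H γ' =>
        rw [hτX, hτX, M.τ_eq_iff] at h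
        exact QuotientGroup.eq.mpr h
  have hK : ∀ (g g' : SL(2, ℤ) ⧸ Gamma0 N) (c : AlgebraicClosure ℚ),
      τX g (algebraMap _ _ c) = τX g' (algebraMap _ _ c) := by
    intro x x' c
    induction x using QuotientGroup.induction_on with
    | H γ =>
      induction x' using QuotientGroup.induction_on with
      | H γ' =>
        rw [hτX, hτX, M.τ_const γ, M.τ_const γ']
  have hY : ∀ (g g' : SL(2, ℤ) ⧸ Gamma0 N), τX g (jBar N)⁻¹ = τX g' (jBar N)⁻¹ := by
    intro x x'
    induction x using QuotientGroup.induction_on with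
    | H γ =>
      induction x' using QuotientGroup.induction_on with
      | H γ' =>
        rw [hτX, hτX, M.τ_y γ, M.τ_y γ']
  have h := card_le_finrank_of_injective (K := AlgebraicClosure ℚ) (y := (jBar N)⁻¹) τX hinj hK hY
  rw [finrank_adjoin_inv] at h
  rw [← Fermat.Agent.Lib.Gamma0Count.card_quotient N, Nat.card_eq_fintype_card]
  exact h

/-- **S24 from the three point models.** -/
theorem genus_of_models (N : ℕ) [NeZero N]
    [AlgebraicCurve.HasCanonicalDivisor (K := AlgebraicClosure ℚ)
      (F := ↥(modularFunctionFieldBar N))]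
    (Mgen : ∀ a : AlgebraicClosure ℚ, a ≠ 0 → a ≠ 1728 →
      Model (AlgebraicClosure ℚ) (modularFunctionFieldBar N) N
        (jBar N - algebraMap (AlgebraicClosure ℚ) (modularFunctionFieldBar N) a) 1 1)
    (M0 : Model (AlgebraicClosure ℚ) (modularFunctionFieldBar N) N
        (jBar N - algebraMap (AlgebraicClosure ℚ) (modularFunctionFieldBar N) 0) 3
        (ModularGroup.S * ModularGroup.T))
    (M1728 : Model (AlgebraicClosure ℚ) (modularFunctionFieldBar N) N
        (jBar N - algebraMap (AlgebraicClosure ℚ) (modularFunctionFieldBar N) 1728) 2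
        ModularGroup.S) :
    (AlgebraicCurve.genus (AlgebraicClosure ℚ) ↥(modularFunctionFieldBar N) : ℚ)
      = genusFormula N :=
  genus_eq_of_counts N (isFF1_jBar N) (placeFacts_of_isFF1 (isFF1_jBar N)) (finrank_jBar N)
    (fun a h0 h1 => nFibre_generic_of_model (isFF1_jBar N) (finrank_jBar N) a (Mgen a h0 h1))
    (nFibre_zero_of_model (isFF1_jBar N) (finrank_jBar N) M0)
    (nFibre_1728_of_model (isFF1_jBar N) (finrank_jBar N) M1728)
    (nPoles_of_model (isFF1_jBar N) (finrank_jBar N) (infModel N))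
    (exists_nat_eq_genusFormula N)

end Fermat.Agent.S24
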